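import Mathlib
import Fermat.Prelude.Def_FLTPrelim_Modularity

/-!
# DS-R (Rankin bound), part 1: mean-square bound for the coefficients of a cusp form

For a cusp form `f` of weight `k` on an arithmetic subgroup with `1 ∈ strictPeriods`:
`∑_{n < M} ‖a_n‖² e^{-4π n y} ≤ C² / y^k` (Bessel/Parseval on a horizontal line), hence
for weight one `∑_{n ≤ M} ‖a_n‖² ≤ C₁ · M`.
-/

set_option autoImplicit false

open UpperHalfPlane hiding I
open ModularFormClass MeasureTheory Complex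
open scoped Real

namespace Fermat.Agent.DS

/-- `T ∈ Γ₁(N)`, so `1` is a strict period. -/
theorem dsr_one_mem_strictPeriods_Gamma1 (N : ℕ) :
    (1 : ℝ) ∈ (Subgroup.map (Matrix.SpecialLinearGroup.mapGL ℝ)
      (CongruenceSubgroup.Gamma1 N)).strictPeriods := by
  have hT : ModularGroup.T ∈ CongruenceSubgroup.Gamma1 N := by
    rw [CongruenceSubgroup.Gamma1_mem]
    simp [ModularGroup.T]
  have h := Subgroup.strictPeriods_eq_zmultiples_one_of_T_mem hT
  rw [h]
  exact AddSubgroup.mem_zmultiples (1 : ℝ)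

end Fermat.Agent.DS

namespace Fermat.Agent.DS

section Line

variable {Γ : Subgroup (GL (Fin 2) ℝ)} {k : ℤ} {F : Type*} [FunLike F ℍ ℂ]

/-- restriction of `f` to the horizontal line of height `y` -/
noncomputable def dsrLine (f : F) (y : ℝ) (u : ℝ) : ℂ := f (ofComplex ((u : ℂ) + y * I))

theorem dsrLine_continuous [ModularFormClass F Γ k] (f : F) {y : ℝ} (hy : 0 < y) :
    Continuous (dsrLine f y) := by
  unfold dsrLine
  have h1 : Continuous (f : ℍ → ℂ) := (ModularFormClass.holo f).continuous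
  have h2 : Continuous (fun u : ℝ => ofComplex ((u : ℂ) + y * I)) := by
    have : ∀ u : ℝ, ofComplex ((u : ℂ) + y * I) = ⟨(u : ℂ) + y * I, by simpa using hy⟩ := by
      intro u
      exact ofComplex_apply_of_im_pos (by simpa using hy)
    simp_rw [this]
    refine Continuous.upperHalfPlaneMk ?_ _
    fun_prop
  exact h1.comp h2

theorem dsr_fourierCoeffOn_line [ModularFormClass F Γ k] (f : F)
    (hΓ : (1 : ℝ) ∈ Γ.strictPeriods) {y : ℝ} (hy : 0 < y) (n : ℕ) :
    fourierCoeffOn zero_lt_one (dsrLine f y) (n : ℤ)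
      = (Real.exp (-2 * π * n * y) : ℂ) * qCoeff f n := by
  rw [fourierCoeffOn_eq_integral, qCoeff,
    ModularFormClass.qExpansion_coeff_eq_intervalIntegral f one_pos hΓ n hy]
  simp only [sub_zero, ne_eq, one_ne_zero, not_false_eq_true, div_self, one_smul,
    smul_eq_mul]
  rw [show (1 : ℂ) / ((1 : ℝ) : ℂ) = 1 by simp, one_mul, ← intervalIntegral.integral_const_mul]
  refine intervalIntegral.integral_congr fun u _ => ?_
  have h1 : dsrLine f y u = f ⟨(u : ℂ) + y * I, by simpa using hy⟩ := by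
    unfold dsrLine
    rw [ofComplex_apply_of_im_pos (by simpa using hy)]
  rw [h1, fourier_coe_apply, Function.Periodic.qParam, ← mul_assoc]
  congr 1
  rw [one_div, ← Complex.exp_nat_mul, ← Complex.exp_neg, Complex.ofReal_exp, ← Complex.exp_add]
  congr 1
  push_cast
  have := Complex.I_sq
  field_simp
  ring_nf
  rw [Complex.I_sq]
  ring
/-- Bessel on the line of height `y`. -/
theorem dsr_bessel_line [ModularFormClass F Γ k] (f : F)
    (hΓ : (1 : ℝ) ∈ Γ.strictPeriods) {y : ℝ} (hy : 0 < y) (B : ℝ)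
    (hB : ∀ u, ‖dsrLine f y u‖ ≤ B) (s : Finset ℕ) :
    ∑ n ∈ s, ‖qCoeff f n‖ ^ 2 * Real.exp (-4 * π * n * y) ≤ B ^ 2 := by
  have hcont := dsrLine_continuous (Γ := Γ) (k := k) f hy
  have hB0 : 0 ≤ B := le_trans (norm_nonneg _) (hB 0)
  have hL2 : MemLp (dsrLine f y) 2 (volume.restrict (Set.Ioc (0:ℝ) 1)) :=
    MemLp.of_bound hcont.aestronglyMeasurable B (Filter.Eventually.of_forall hB)
  have hs := hasSum_sq_fourierCoeffOn (zero_lt_one' ℝ) hL2
  simp only [sub_zero, inv_one, one_smul] at hs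
  have hinj : Function.Injective (Nat.cast : ℕ → ℤ) := Nat.cast_injective
  have h2 := sum_le_hasSum (s.map ⟨Nat.cast, hinj⟩) (fun i _ => by positivity) hs
  rw [Finset.sum_map] at h2
  have h3 : ∫ u in (0:ℝ)..1, ‖dsrLine f y u‖ ^ 2 ≤ B ^ 2 := by
    have : ∫ u in (0:ℝ)..1, ‖dsrLine f y u‖ ^ 2 ≤ ∫ _u in (0:ℝ)..1, B ^ 2 := by
      refine intervalIntegral.integral_mono_on zero_le_one ?_ ?_ fun u _ => ?_
      · exact (hcont.norm.pow 2).intervalIntegrable _ _
      · exact continuous_const.intervalIntegrable _ _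
      · exact pow_le_pow_left₀ (norm_nonneg _) (hB u) 2
    simpa using this
  refine le_trans (le_of_eq ?_) (h2.trans h3)
  refine Finset.sum_congr rfl fun n _ => ?_
  simp only [Function.Embedding.coeFn_mk]
  rw [dsr_fourierCoeffOn_line f hΓ hy n, norm_mul, mul_pow, Complex.norm_real,
    Real.norm_of_nonneg (Real.exp_pos _).le, ← Real.exp_nat_mul, mul_comm]
  congr 2
  push_cast; ring

theorem dsr_ofComplex_im {y : ℝ} (hy : 0 < y) (u : ℝ) :
    (ofComplex ((u : ℂ) + y * I)).im = y := by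
  rw [ofComplex_apply_of_im_pos (by simpa using hy)]
  simp [UpperHalfPlane.im]

/-- mean-square bound: weight one, `∑_{n ≤ M} ‖a_n‖² ≤ C₁ (M+1)`. -/
theorem dsr_sum_sq_le [Γ.IsArithmetic] [CuspFormClass F Γ 1] (f : F)
    (hΓ : (1 : ℝ) ∈ Γ.strictPeriods) :
    ∃ C : ℝ, 0 ≤ C ∧ ∀ M : ℕ, ∑ n ∈ Finset.range (M + 1), ‖qCoeff f n‖ ^ 2 ≤ C * (M + 1) := by
  obtain ⟨C, hC⟩ := CuspFormClass.exists_bound (Γ := Γ) (k := 1) f
  refine ⟨Real.exp (4 * π) * C ^ 2, by positivity, fun M => ?_⟩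
  have hMr : (0 : ℝ) < (M : ℝ) + 1 := by positivity
  obtain ⟨y, hydef⟩ : ∃ y : ℝ, y = 1 / ((M : ℝ) + 1) := ⟨_, rfl⟩
  have hy : (0:ℝ) < y := by rw [hydef]; positivity
  have hB : ∀ u, ‖dsrLine f y u‖ ≤ C * Real.sqrt ((M : ℝ) + 1) := by
    intro u
    unfold dsrLine
    refine (hC _).trans (le_of_eq ?_)
    rw [dsr_ofComplex_im hy u, hydef, Real.sqrt_eq_rpow, one_div, Real.inv_rpow hMr.le,
      div_eq_mul_inv, inv_inv]
    norm_num
  have h1 := dsr_bessel_line (Γ := Γ) (k := 1) f hΓ hy _ hB (Finset.range (M + 1))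
  have h2 : ∑ n ∈ Finset.range (M + 1), ‖qCoeff f n‖ ^ 2 * Real.exp (-(4 * π))
      ≤ ∑ n ∈ Finset.range (M + 1), ‖qCoeff f n‖ ^ 2 *
          Real.exp (-4 * π * n * y) := by
    refine Finset.sum_le_sum fun n hn => ?_
    refine mul_le_mul_of_nonneg_left (Real.exp_le_exp.mpr ?_) (by positivity)
    have hn' : (n : ℝ) ≤ (M : ℝ) + 1 := by
      have := Finset.mem_range.mp hn
      exact_mod_cast this.le
    have : (n : ℝ) * y ≤ 1 := by
      rw [hydef, mul_one_div, div_le_one hMr]; exact hn'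
    have hpi : 0 < π := Real.pi_pos
    nlinarith
  rw [← Finset.sum_mul] at h2
  have h3 := h2.trans h1
  rw [mul_pow, Real.sq_sqrt hMr.le] at h3
  have hexp : Real.exp (-(4 * π)) * Real.exp (4 * π) = 1 := by
    rw [← Real.exp_add]; simp
  calc ∑ n ∈ Finset.range (M + 1), ‖qCoeff f n‖ ^ 2
      = ((∑ n ∈ Finset.range (M + 1), ‖qCoeff f n‖ ^ 2) * Real.exp (-(4 * π))) * Real.exp (4 * π) := by
        rw [mul_assoc, hexp, mul_one]
    _ ≤ (C ^ 2 * ((M : ℝ) + 1)) * Real.exp (4 * π) := by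
        exact mul_le_mul_of_nonneg_right h3 (Real.exp_pos _).le
    _ = Real.exp (4 * π) * C ^ 2 * ((M : ℝ) + 1) := by ring

end Line

end Fermat.Agent.DS
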