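import Mathlib

/-!
# DS-R (Rankin bound), part 2: Abel summation and the zeta partial sums
-/

set_option autoImplicit false

open Finset

namespace Fermat.Agent.DS

/-- Abel summation in inequality form: if the partial sums of `b ≥ 0` are `≤ C · (number of terms)`
and `c ≥ 0` is antitone then `∑ b c ≤ C ∑ c`. -/
theorem dsr_abel (b c : ℕ → ℝ) (hc : ∀ n, 0 ≤ c n) (hanti : ∀ n, c (n + 1) ≤ c n)
    (C : ℝ) (hA : ∀ M, ∑ n ∈ range (M + 1), b n ≤ C * (M + 1)) (M : ℕ) :
    ∑ n ∈ range (M + 1), b n * c n ≤ C * ∑ n ∈ range (M + 1), c n := by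
  suffices h : c M * (C * (M + 1) - ∑ n ∈ range (M + 1), b n)
      ≤ C * ∑ n ∈ range (M + 1), c n - ∑ n ∈ range (M + 1), b n * c n by
    have h0 : 0 ≤ c M * (C * (M + 1) - ∑ n ∈ range (M + 1), b n) :=
      mul_nonneg (hc M) (sub_nonneg.mpr (hA M))
    linarith
  induction M with
  | zero => simp; ring_nf; exact le_refl _
  | succ M ih =>
    rw [sum_range_succ (fun n => c n), sum_range_succ (fun n => b n * c n),
      sum_range_succ (fun n => b n) (M + 1)]
    have h1 : 0 ≤ C * (M + 1) - ∑ n ∈ range (M + 1), b n := sub_nonneg.mpr (hA M)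
    have h2 := hanti M
    have h3 : c (M + 1) * (C * (M + 1) - ∑ n ∈ range (M + 1), b n)
        ≤ c M * (C * (M + 1) - ∑ n ∈ range (M + 1), b n) :=
      mul_le_mul_of_nonneg_right h2 h1
    push_cast
    nlinarith [ih, h3]

/-- `∑_{i < a} (i+2)^{-s} ≤ 1/(s-1)` for `s > 1`. -/
theorem dsr_zeta_tail_le {s : ℝ} (hs : 1 < s) (a : ℕ) :
    ∑ i ∈ range a, ((i : ℝ) + 2) ^ (-s) ≤ 1 / (s - 1) := by
  have hanti : AntitoneOn (fun x : ℝ => x ^ (-s)) (Set.Icc (1:ℝ) (1 + a)) := by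
    intro x hx y hy hxy
    have hx0 : 0 < x := lt_of_lt_of_le one_pos hx.1
    exact Real.rpow_le_rpow_of_nonpos hx0 hxy (by linarith)
  have h := hanti.sum_le_integral
  have h2 : ∫ x in (1:ℝ)..(1 + a), x ^ (-s) = ((1 + (a:ℝ)) ^ (-s + 1) - 1 ^ (-s + 1)) / (-s + 1) := by
    rw [integral_rpow]
    right
    refine ⟨by linarith, ?_⟩
    rw [Set.uIcc_of_le (by linarith [Nat.cast_nonneg (α := ℝ) a])]
    intro h0
    linarith [h0.1]
  rw [h2] at h
  refine le_trans (le_of_eq ?_) (h.trans ?_)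
  · refine sum_congr rfl fun i _ => ?_
    push_cast; ring_nf
  · have hpos : 0 < (1 + (a:ℝ)) ^ (-s + 1) := Real.rpow_pos_of_pos (by positivity) _
    rw [Real.one_rpow]
    have hs1 : 0 < s - 1 := by linarith
    have : ((1 + (a:ℝ)) ^ (-s + 1) - 1) / (-s + 1) = (1 - (1 + (a:ℝ)) ^ (-s + 1)) / (s - 1) := by
      rw [div_eq_div_iff (by linarith) (by linarith)]
      ring
    rw [this]
    exact div_le_div_of_nonneg_right (by linarith) hs1.le
end Fermat.Agent.DS
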