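import Mathlib

/-!
# DS-R (Rankin bound), part 4: the local Euler factor

For a sequence `a 0 = 1`, `a 1 = A`, `a (m+2) = A a (m+1) - ε a m` with `‖ε‖ = 1` and
`0 < X ≤ 1/2`, if `∑ ‖a m‖² X^m` converges then it is `≥ exp (‖A‖² X - 4 X²)`.
-/

set_option autoImplicit false

open Finset
open scoped ComplexConjugate

namespace Fermat.Agent.DS

/-- the algebraic identity behind the five-term recurrence for `‖a m‖²` -/
theorem dsr_rec_identity (a ab e eb x xb y yb : ℂ) (he : e * eb = 1) :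
    ((a*(a*(a*y - e*x) - e*y) - e*(a*y - e*x)) *
        (ab*(ab*(ab*yb - eb*xb) - eb*yb) - eb*(ab*yb - eb*xb))
     - (a*ab)*((a*(a*y - e*x) - e*y)*(ab*(ab*yb - eb*xb) - eb*yb))
     + (a*a*eb + ab*ab*e - 2)*((a*y - e*x)*(ab*yb - eb*xb)) - (a*ab)*(y*yb) + x*xb) = 0 := by
  linear_combination
    (3*a*y*ab*yb - 2*a*y*eb*xb - 2*e*x*ab*yb + x*xb*(e*eb - 1)) * he

section

variable {A ε : ℂ} {a : ℕ → ℂ}

/-- the real number `A² ε̄ + Ā² ε` -/
noncomputable def dsrS (A ε : ℂ) : ℝ := 2 * (A * A * conj ε).re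

theorem dsrS_coe (A ε : ℂ) : ((dsrS A ε : ℝ) : ℂ) = A * A * conj ε + conj A * conj A * ε := by
  have h : conj (A * A * conj ε) = conj A * conj A * ε := by simp
  rw [← h, Complex.add_conj, dsrS]

theorem dsr_normSq_coe (z : ℂ) : ((‖z‖ ^ 2 : ℝ) : ℂ) = z * conj z := by
  rw [Complex.mul_conj, Complex.normSq_eq_norm_sq]

theorem dsr_eps_mul_conj (hε : ‖ε‖ = 1) : ε * conj ε = 1 := by
  rw [Complex.mul_conj, Complex.normSq_eq_norm_sq, hε]; simp

/-- `2‖A‖² - S = ‖A - Ā ε‖² ≥ 0` -/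
theorem dsrS_le (hε : ‖ε‖ = 1) : dsrS A ε ≤ 2 * ‖A‖ ^ 2 := by
  have h : (2 * ‖A‖ ^ 2 - dsrS A ε : ℝ) = ‖A - conj A * ε‖ ^ 2 := by
    apply Complex.ofReal_injective
    push_cast
    have e1 : ∀ z : ℂ, ((‖z‖ : ℂ)) ^ 2 = z * conj z := fun z => by
      have := dsr_normSq_coe z
      push_cast at this
      exact this
    rw [dsrS_coe, e1, e1]
    have he := dsr_eps_mul_conj hε
    simp only [map_sub, map_mul, Complex.conj_conj]
    linear_combination (- A * conj A) * he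
  have : 0 ≤ ‖A - conj A * ε‖ ^ 2 := by positivity
  linarith

/-- five-term recurrence for `c m = ‖a m‖²` -/
theorem dsr_c_rec (hε : ‖ε‖ = 1) (hrec : ∀ m, a (m + 2) = A * a (m + 1) - ε * a m) (m : ℕ) :
    ‖a (m + 4)‖ ^ 2 - ‖A‖ ^ 2 * ‖a (m + 3)‖ ^ 2 + (dsrS A ε - 2) * ‖a (m + 2)‖ ^ 2
      - ‖A‖ ^ 2 * ‖a (m + 1)‖ ^ 2 + ‖a m‖ ^ 2 = 0 := by
  apply Complex.ofReal_injective
  push_cast
  have e1 : ∀ z : ℂ, ((‖z‖ : ℂ)) ^ 2 = z * conj z := fun z => by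
    have := dsr_normSq_coe z
    push_cast at this
    exact this
  rw [e1, e1, e1, e1, e1, e1, dsrS_coe]
  have h2 : a (m + 2) = A * a (m + 1) - ε * a m := hrec m
  have h3 : a (m + 3) = A * a (m + 2) - ε * a (m + 1) := hrec (m + 1)
  have h4 : a (m + 4) = A * a (m + 3) - ε * a (m + 2) := hrec (m + 2)
  rw [h4, h3, h2]
  simp only [map_sub, map_mul]
  have := dsr_rec_identity A (conj A) ε (conj ε) (a m) (conj (a m)) (a (m + 1)) (conj (a (m + 1)))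
    (dsr_eps_mul_conj hε)
  linear_combination this

theorem dsr_c2 (hε : ‖ε‖ = 1) (h0 : a 0 = 1) (h1 : a 1 = A)
    (hrec : ∀ m, a (m + 2) = A * a (m + 1) - ε * a m) :
    ‖a 2‖ ^ 2 = (‖A‖ ^ 2) ^ 2 - dsrS A ε + 1 := by
  apply Complex.ofReal_injective
  push_cast
  have e1 : ∀ z : ℂ, ((‖z‖ : ℂ)) ^ 2 = z * conj z := fun z => by
    have := dsr_normSq_coe z
    push_cast at this
    exact this
  have h2 : a 2 = A * A - ε := by rw [hrec 0, h1, h0]; ring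
  rw [e1, e1, dsrS_coe, h2]
  simp only [map_sub, map_mul]
  have he := dsr_eps_mul_conj hε
  linear_combination he

theorem dsr_c3 (hε : ‖ε‖ = 1) (h0 : a 0 = 1) (h1 : a 1 = A)
    (hrec : ∀ m, a (m + 2) = A * a (m + 1) - ε * a m) :
    ‖a 3‖ ^ 2 = ‖A‖ ^ 2 * ‖a 2‖ ^ 2 - (dsrS A ε - 2) * ‖A‖ ^ 2 + ‖A‖ ^ 2 := by
  apply Complex.ofReal_injective
  push_cast
  have e1 : ∀ z : ℂ, ((‖z‖ : ℂ)) ^ 2 = z * conj z := fun z => by
    have := dsr_normSq_coe z
    push_cast at this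
    exact this
  have h2 : a 2 = A * A - ε := by rw [hrec 0, h1, h0]; ring
  have h3 : a 3 = A * (A * A - ε) - ε * A := by rw [hrec 1, h2, h1]
  rw [e1, e1, e1, dsrS_coe, h3, h2]
  simp only [map_sub, map_mul]
  have he := dsr_eps_mul_conj hε
  have := dsr_rec_identity A (conj A) ε (conj ε) 0 0 1 1 he
  linear_combination this

theorem dsr_local_identity (hε : ‖ε‖ = 1) (h0 : a 0 = 1) (h1 : a 1 = A)
    (hrec : ∀ m, a (m + 2) = A * a (m + 1) - ε * a m) {X : ℝ}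
    (hsum : Summable fun m => ‖a m‖ ^ 2 * X ^ m) :
    (∑' m, ‖a m‖ ^ 2 * X ^ m) *
      (1 - ‖A‖ ^ 2 * X + (dsrS A ε - 2) * X ^ 2 - ‖A‖ ^ 2 * X ^ 3 + X ^ 4) = 1 - X ^ 2 := by
  set g : ℕ → ℝ := fun m => ‖a m‖ ^ 2 * X ^ m with hg
  have hc2 := dsr_c2 hε h0 h1 hrec
  have hc3 := dsr_c3 hε h0 h1 hrec
  set u := ‖A‖ ^ 2 with hu
  set S := dsrS A ε with hS
  have hs : ∀ j, Summable fun m => g (m + j) := fun j => (summable_nat_add_iff j).mpr hsum
  have hz : ∀ m, g (m + 4) - u * X * g (m + 3) + (S - 2) * X ^ 2 * g (m + 2)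
      - u * X ^ 3 * g (m + 1) + X ^ 4 * g m = 0 := by
    intro m
    have := dsr_c_rec hε hrec m
    simp only [hg]
    linear_combination X ^ (m + 4) * this
  have htsum : ∑' m, (g (m + 4) - u * X * g (m + 3) + (S - 2) * X ^ 2 * g (m + 2)
      - u * X ^ 3 * g (m + 1) + X ^ 4 * g m) = 0 := by
    simp only [hz, tsum_zero]
  have s4 := hs 4
  have s3 : Summable fun m => u * X * g (m + 3) := (hs 3).mul_left _
  have s2 : Summable fun m => (S - 2) * X ^ 2 * g (m + 2) := (hs 2).mul_left _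
  have s1 : Summable fun m => u * X ^ 3 * g (m + 1) := (hs 1).mul_left _
  have s0 : Summable fun m => X ^ 4 * g m := hsum.mul_left _
  rw [Summable.tsum_add (((s4.sub s3).add s2).sub s1) s0,
    Summable.tsum_sub ((s4.sub s3).add s2) s1,
    Summable.tsum_add (s4.sub s3) s2, Summable.tsum_sub s4 s3,
    tsum_mul_left, tsum_mul_left, tsum_mul_left, tsum_mul_left] at htsum
  have e4 := hsum.sum_add_tsum_nat_add 4
  have e3 := hsum.sum_add_tsum_nat_add 3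
  have e2 := hsum.sum_add_tsum_nat_add 2
  have e1 := hsum.sum_add_tsum_nat_add 1
  simp only [sum_range_succ, sum_range_zero, zero_add] at e4 e3 e2 e1
  have g0 : g 0 = 1 := by simp [hg, h0]
  have g1 : g 1 = u * X := by simp [hg, h1, hu]
  have g2 : g 2 = (u ^ 2 - S + 1) * X ^ 2 := by simp only [hg]; rw [hc2]
  have g3 : g 3 = (u * (u ^ 2 - S + 1) - (S - 2) * u + u) * X ^ 3 := by
    simp only [hg]; rw [hc3, hc2]
  rw [g0, g1, g2, g3] at e4
  rw [g0, g1, g2] at e3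
  rw [g0, g1] at e2
  rw [g0] at e1
  linear_combination htsum - e4 + u * X * e3 - (S - 2) * X ^ 2 * e2 + u * X ^ 3 * e1

end

section
/-- `exp (t + t²/2) ≤ 1/(1-t)` for `0 ≤ t < 1` -/
theorem dsr_exp_le_inv_one_sub {t : ℝ} (h0 : 0 ≤ t) (h1 : t < 1) :
    Real.exp (t + t ^ 2 / 2) ≤ 1 / (1 - t) := by
  have hs := Real.hasSum_pow_div_log_of_abs_lt_one (x := t) (by rw [abs_lt]; constructor <;> linarith)
  have h2 := sum_le_hasSum (range 2) (fun i _ => by positivity) hs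
  simp only [sum_range_succ, sum_range_zero, zero_add, Nat.cast_zero, Nat.cast_one] at h2
  have hpos : 0 < 1 - t := by linarith
  have h3 : t + t ^ 2 / 2 ≤ -Real.log (1 - t) := by
    refine le_trans (le_of_eq ?_) h2
    norm_num
  calc Real.exp (t + t ^ 2 / 2) ≤ Real.exp (-Real.log (1 - t)) := Real.exp_le_exp.mpr h3
    _ = 1 / (1 - t) := by rw [Real.exp_neg, Real.exp_log hpos, one_div]

variable {A ε : ℂ} {a : ℕ → ℂ}

theorem dsr_local_lower (hε : ‖ε‖ = 1) (h0 : a 0 = 1) (h1 : a 1 = A)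
    (hrec : ∀ m, a (m + 2) = A * a (m + 1) - ε * a m) {X : ℝ} (hX0 : 0 < X) (hX : X ≤ 1 / 2)
    (hsum : Summable fun m => ‖a m‖ ^ 2 * X ^ m) :
    Real.exp (‖A‖ ^ 2 * X - 4 * X ^ 2) ≤ ∑' m, ‖a m‖ ^ 2 * X ^ m := by
  have hid := dsr_local_identity hε h0 h1 hrec hsum
  have hSle := dsrS_le (A := A) hε
  set T := ∑' m, ‖a m‖ ^ 2 * X ^ m with hT
  set u := ‖A‖ ^ 2 with hu
  set S := dsrS A ε with hS
  have hu0 : 0 ≤ u := by positivity
  have hT1 : 1 ≤ T := by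
    have := hsum.le_tsum 0 (fun j _ => by positivity)
    simpa [h0] using this
  have hX2 : 0 < 1 - X ^ 2 := by nlinarith
  set Q := 1 - u * X + (S - 2) * X ^ 2 - u * X ^ 3 + X ^ 4 with hQ
  have hQpos : 0 < Q := by
    by_contra h
    rw [not_lt] at h
    have : T * Q ≤ 0 := mul_nonpos_of_nonneg_of_nonpos (by linarith) h
    linarith
  -- Q ≤ Q₀ = (1-X²)² (1 - t)
  set t := u * X / (1 + X) ^ 2 with ht
  have h1X : 0 < (1 + X) ^ 2 := by positivity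
  have ht0 : 0 ≤ t := by positivity
  have huX : u * X = t * (1 + X) ^ 2 := by rw [ht]; field_simp
  have hQ0 : Q ≤ (1 - X ^ 2) ^ 2 * (1 - t) := by
    have : (1 - X ^ 2) ^ 2 * (1 - t) = (1 - X ^ 2) ^ 2 - u * X * (1 - X) ^ 2 := by
      rw [huX]; ring
    rw [this, hQ]
    nlinarith [sq_nonneg X]
  have ht1 : t < 1 := by
    by_contra h
    rw [not_lt] at h
    have : (1 - X ^ 2) ^ 2 * (1 - t) ≤ 0 :=
      mul_nonpos_of_nonneg_of_nonpos (by positivity) (by linarith)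
    linarith
  have h1t : 0 < 1 - t := by linarith
  -- T = (1 - X²)/Q ≥ 1/((1-X²)(1-t)) ≥ 1/(1-t)
  have hTge : 1 / (1 - t) ≤ T := by
    rw [div_le_iff₀ h1t]
    have h2 : T * Q ≤ T * ((1 - X ^ 2) ^ 2 * (1 - t)) :=
      mul_le_mul_of_nonneg_left hQ0 (by linarith)
    rw [hid] at h2
    -- (1 - X²) ≤ T (1-X²)² (1-t)  ⇒  1 ≤ T (1-X²)(1-t) ≤ T (1-t)
    have h3 : 1 ≤ T * ((1 - X ^ 2) * (1 - t)) := by
      have : (1 - X ^ 2) * 1 ≤ (1 - X ^ 2) * (T * ((1 - X ^ 2) * (1 - t))) := by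
        calc (1 - X ^ 2) * 1 = 1 - X ^ 2 := mul_one _
          _ ≤ T * ((1 - X ^ 2) ^ 2 * (1 - t)) := h2
          _ = (1 - X ^ 2) * (T * ((1 - X ^ 2) * (1 - t))) := by ring
      exact le_of_mul_le_mul_left this hX2
    have h4 : T * ((1 - X ^ 2) * (1 - t)) ≤ T * (1 - t) := by
      refine mul_le_mul_of_nonneg_left ?_ (by linarith)
      have : (1 - X ^ 2) * (1 - t) ≤ 1 * (1 - t) :=
        mul_le_mul_of_nonneg_right (by nlinarith) h1t.le
      linarith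
    linarith
  refine le_trans ?_ ((dsr_exp_le_inv_one_sub ht0 ht1).trans hTge)
  refine Real.exp_le_exp.mpr ?_
  rw [huX]
  nlinarith [sq_nonneg (t - (2 * X + X ^ 2)), sq_nonneg X, mul_nonneg hX0.le hX0.le]

end

end Fermat.Agent.DS
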