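import Mathlib

/-!
# DS-R (Rankin bound), part 3: multiplicativity from the Hecke relations
-/

set_option autoImplicit false

namespace Fermat.Agent.DS

section

variable {N : ℕ} {a ε : ℕ → ℂ}

/-- the Hecke relations away from `N` (abstract form of `hT` in S48) -/
def DsrHecke (N : ℕ) (a ε : ℕ → ℂ) : Prop :=
  ∀ p : ℕ, p.Prime → ¬ p ∣ N → ∀ n : ℕ,
    a (p * n) + ε p * (if p ∣ n then a (n / p) else 0) = a p * a n

theorem DsrHecke.mul_of_not_dvd (hT : DsrHecke N a ε) {p : ℕ} (hp : p.Prime) (hpN : ¬ p ∣ N)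
    {n : ℕ} (hn : ¬ p ∣ n) : a (p * n) = a p * a n := by
  have := hT p hp hpN n
  rwa [if_neg hn, mul_zero, add_zero] at this

theorem DsrHecke.mul_of_dvd (hT : DsrHecke N a ε) {p : ℕ} (hp : p.Prime) (hpN : ¬ p ∣ N)
    (n : ℕ) : a (p * (p * n)) = a p * a (p * n) - ε p * a n := by
  have := hT p hp hpN (p * n)
  rw [if_pos (dvd_mul_right p n), Nat.mul_div_cancel_left n hp.pos] at this
  linear_combination this

/-- recurrence on prime powers -/
theorem DsrHecke.pow_succ_succ (hT : DsrHecke N a ε) {p : ℕ} (hp : p.Prime) (hpN : ¬ p ∣ N)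
    (m : ℕ) : a (p ^ (m + 2)) = a p * a (p ^ (m + 1)) - ε p * a (p ^ m) := by
  have := hT.mul_of_dvd hp hpN (p ^ m)
  rw [show p * (p * p ^ m) = p ^ (m + 2) by ring, show p * p ^ m = p ^ (m + 1) by ring] at this
  exact this

theorem DsrHecke.pow_mul (hT : DsrHecke N a ε) (h1 : a 1 = 1) {p : ℕ} (hp : p.Prime)
    (hpN : ¬ p ∣ N) {n : ℕ} (hn : ¬ p ∣ n) (m : ℕ) : a (p ^ m * n) = a (p ^ m) * a n := by
  induction m using Nat.twoStepInduction with
  | zero => simp [h1]
  | one => simpa using hT.mul_of_not_dvd hp hpN hn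
  | more m ih0 ih1 =>
    have h2 := hT.mul_of_dvd hp hpN (p ^ m * n)
    rw [show p * (p * (p ^ m * n)) = p ^ (m + 2) * n by ring,
      show p * (p ^ m * n) = p ^ (m + 1) * n by ring] at h2
    rw [h2, ih0, ih1, hT.pow_succ_succ hp hpN m]
    ring

/-- multiplicativity on coprime arguments prime to `N` -/
theorem DsrHecke.mul_coprime (hT : DsrHecke N a ε) (h1 : a 1 = 1) :
    ∀ m n : ℕ, m.Coprime n → m.Coprime N → a (m * n) = a m * a n := by
  intro m
  induction m using Nat.strong_induction_on with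
  | _ m ih =>
    intro n hmn hmN
    rcases Nat.lt_or_ge m 2 with hm | hm
    · interval_cases m
      · -- m = 0: coprime 0 n means n = 1
        have : n = 1 := by simpa using hmn
        subst this; simp [h1]
      · simp [h1]
    · obtain ⟨p, hp, hpm⟩ := Nat.exists_prime_and_dvd (by omega : m ≠ 1)
      have hm0 : m ≠ 0 := by omega
      obtain ⟨k, m', hm', rfl⟩ := Nat.exists_eq_pow_mul_and_not_dvd hm0 p hp.ne_one
      have hk : k ≠ 0 := by
        rintro rfl
        simp only [pow_zero, one_mul] at hpm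
        exact hm' hpm
      have hpN : ¬ p ∣ N := by
        intro h
        have h2 : p ∣ p ^ k * m' := Dvd.dvd.mul_right (dvd_pow_self p hk) _
        have := Nat.Coprime.eq_one_of_dvd (Nat.Coprime.coprime_dvd_left h2 hmN) h
        exact hp.ne_one this
      have hpn : ¬ p ∣ n := by
        intro h
        have h2 : p ∣ p ^ k * m' := Dvd.dvd.mul_right (dvd_pow_self p hk) _
        have := Nat.Coprime.eq_one_of_dvd (Nat.Coprime.coprime_dvd_left h2 hmn) h
        exact hp.ne_one this
      have hm'lt : m' < p ^ k * m' := by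
        have hm'0 : 0 < m' := Nat.pos_of_ne_zero (by rintro rfl; simp at hm0)
        have : 2 ≤ p ^ k := le_trans hp.two_le (Nat.le_self_pow hk p)
        nlinarith
      have hm'n : m'.Coprime n := Nat.Coprime.coprime_dvd_left (dvd_mul_left _ _) hmn
      have hm'N : m'.Coprime N := Nat.Coprime.coprime_dvd_left (dvd_mul_left _ _) hmN
      have hpm'n : ¬ p ∣ m' * n := by
        intro h
        rcases (Nat.Prime.dvd_mul hp).mp h with h | h
        · exact hm' h
        · exact hpn h
      rw [mul_assoc, hT.pow_mul h1 hp hpN hpm'n, ih m' hm'lt n hm'n hm'N,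
        hT.pow_mul h1 hp hpN hm']
      ring

end

end Fermat.Agent.DS
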