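import Fermat.Agent.Lib.DS.Rankin.Parseval
import Fermat.Agent.Lib.DS.Rankin.Abel
import Fermat.Agent.Lib.DS.Rankin.Mult
import Fermat.Agent.Lib.DS.Rankin.Local

/-!
# DS-R (Rankin bound), part 5: the main estimate

`∑_{p ∈ P} ‖a_p‖² p^{-s} ≤ log (1/(s-1)) + C` for `1 < s < 2`, uniformly in the finite set `P` of
primes not dividing `N`, for a sequence `a` satisfying the Hecke relations away from `N` with a
unitary `ε` and the mean-square bound `∑_{n ≤ M} ‖a_n‖² ≤ C₁ (M+1)`.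
-/

set_option autoImplicit false

open Finset

namespace Fermat.Agent.DS

section Abstract

variable {N : ℕ} {a ε : ℕ → ℂ}

/-- the Dirichlet coefficients `‖a_n‖² n^{-s}` restricted to `n` prime to `N` -/
noncomputable def dsrF (N : ℕ) (a : ℕ → ℂ) (s : ℝ) (n : ℕ) : ℝ :=
  if n.Coprime N then ‖a n‖ ^ 2 * (n : ℝ) ^ (-s) else 0

theorem dsrF_nonneg (N : ℕ) (a : ℕ → ℂ) (s : ℝ) (n : ℕ) : 0 ≤ dsrF N a s n := by
  unfold dsrF
  split_ifs
  · positivity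
  · exact le_rfl

/-- the comparison weight `c n = (max n 1)^{-s}` -/
noncomputable def dsrW (s : ℝ) (n : ℕ) : ℝ := ((max n 1 : ℕ) : ℝ) ^ (-s)

theorem dsrW_nonneg (s : ℝ) (n : ℕ) : 0 ≤ dsrW s n := by
  unfold dsrW; positivity

theorem dsrW_anti {s : ℝ} (hs : 0 ≤ s) (n : ℕ) : dsrW s (n + 1) ≤ dsrW s n := by
  unfold dsrW
  have h1 : (0:ℝ) < ((max n 1 : ℕ) : ℝ) := by
    have : 0 < max n 1 := lt_of_lt_of_le one_pos (le_max_right _ _)
    exact_mod_cast this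
  refine Real.rpow_le_rpow_of_nonpos h1 ?_ (by linarith)
  have : max n 1 ≤ max (n + 1) 1 := max_le_max (Nat.le_succ n) le_rfl
  exact_mod_cast this

theorem dsrF_le (N : ℕ) (a : ℕ → ℂ) {s : ℝ} (hs : 0 < s) (n : ℕ) :
    dsrF N a s n ≤ ‖a n‖ ^ 2 * dsrW s n := by
  unfold dsrF dsrW
  split_ifs
  · rcases Nat.eq_zero_or_pos n with rfl | hn
    · rw [Nat.cast_zero, Real.zero_rpow (by linarith), mul_zero]
      positivity
    · rw [max_eq_left hn]
  · positivity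

theorem dsr_sum_dsrW_le {s : ℝ} (hs : 1 < s) (M : ℕ) :
    ∑ n ∈ range (M + 1), dsrW s n ≤ 2 + 1 / (s - 1) := by
  have hpos : 0 < 1 / (s - 1) := by
    have : 0 < s - 1 := by linarith
    positivity
  rcases Nat.lt_or_ge M 1 with hM | hM
  · have : M = 0 := by omega
    subst this
    have h0 : dsrW s 0 = 1 := by simp [dsrW]
    rw [zero_add, sum_range_one, h0]
    linarith
  · obtain ⟨K, rfl⟩ : ∃ K, M = K + 1 := ⟨M - 1, by omega⟩
    rw [sum_range_succ', sum_range_succ']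
    have h0 : dsrW s 0 = 1 := by simp [dsrW]
    have h1 : dsrW s (0 + 1) = 1 := by simp [dsrW]
    have h2 : ∑ i ∈ range K, dsrW s (i + 1 + 1) = ∑ i ∈ range K, ((i : ℝ) + 2) ^ (-s) := by
      refine sum_congr rfl fun i _ => ?_
      unfold dsrW
      rw [max_eq_left (by omega)]
      push_cast
      ring_nf
    rw [h0, h1, h2]
    have := dsr_zeta_tail_le hs K
    linarith

/-- partial sums of `dsrF` are bounded -/
theorem dsr_sum_dsrF_le {s : ℝ} (hs : 1 < s) {C₁ : ℝ} (hC₁ : 0 ≤ C₁)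
    (hA : ∀ M : ℕ, ∑ n ∈ range (M + 1), ‖a n‖ ^ 2 ≤ C₁ * (M + 1)) (M : ℕ) :
    ∑ n ∈ range M, dsrF N a s n ≤ C₁ * (2 + 1 / (s - 1)) := by
  have h1 : ∑ n ∈ range M, dsrF N a s n ≤ ∑ n ∈ range (M + 1), dsrF N a s n :=
    sum_le_sum_of_subset_of_nonneg (range_subset_range.mpr (Nat.le_succ M))
      (fun n _ _ => dsrF_nonneg N a s n)
  have h2 : ∑ n ∈ range (M + 1), dsrF N a s n ≤ ∑ n ∈ range (M + 1), ‖a n‖ ^ 2 * dsrW s n :=
    sum_le_sum fun n _ => dsrF_le N a (by linarith) n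
  have h3 := dsr_abel (fun n => ‖a n‖ ^ 2) (dsrW s) (dsrW_nonneg s) (dsrW_anti (by linarith))
    C₁ hA M
  have h4 : C₁ * ∑ n ∈ range (M + 1), dsrW s n ≤ C₁ * (2 + 1 / (s - 1)) :=
    mul_le_mul_of_nonneg_left (dsr_sum_dsrW_le hs M) hC₁
  linarith

theorem dsrF_one (N : ℕ) {a : ℕ → ℂ} (h1 : a 1 = 1) (s : ℝ) : dsrF N a s 1 = 1 := by
  unfold dsrF
  rw [if_pos (Nat.coprime_one_left N), h1]
  simp

theorem dsrF_mul (hT : DsrHecke N a ε) (h1 : a 1 = 1) (s : ℝ) {m n : ℕ} (hmn : m.Coprime n) :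
    dsrF N a s (m * n) = dsrF N a s m * dsrF N a s n := by
  unfold dsrF
  by_cases hm : m.Coprime N
  · by_cases hn : n.Coprime N
    · rw [if_pos hm, if_pos hn, if_pos (Nat.Coprime.mul_left hm hn), hT.mul_coprime h1 m n hmn hm,
        norm_mul, Nat.cast_mul, Real.mul_rpow (Nat.cast_nonneg m) (Nat.cast_nonneg n)]
      ring
    · rw [if_neg hn, mul_zero, if_neg]
      intro h
      exact hn (Nat.Coprime.coprime_mul_left h)
  · rw [if_neg hm, zero_mul, if_neg]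
    intro h
    exact hm (Nat.Coprime.coprime_mul_right h)

theorem dsrF_prime_pow {p : ℕ} (hp : p.Prime) (hpN : ¬ p ∣ N) (s : ℝ) (e : ℕ) :
    dsrF N a s (p ^ e) = ‖a (p ^ e)‖ ^ 2 * ((p : ℝ) ^ (-s)) ^ e := by
  unfold dsrF
  have hc : (p ^ e).Coprime N := Nat.Coprime.pow_left e ((Nat.Prime.coprime_iff_not_dvd hp).mpr hpN)
  rw [if_pos hc, Nat.cast_pow, ← Real.rpow_natCast ((p : ℝ) ^ (-s)) e,
    ← Real.rpow_mul (Nat.cast_nonneg p), ← Real.rpow_natCast (p : ℝ) e,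
    ← Real.rpow_mul (Nat.cast_nonneg p), mul_comm (-s)]

theorem dsr_prime_rpow_le_half {p : ℕ} (hp : p.Prime) {s : ℝ} (hs : 1 < s) :
    (p : ℝ) ^ (-s) ≤ 1 / 2 := by
  have hp2 : (2 : ℝ) ≤ p := by exact_mod_cast hp.two_le
  have hp0 : (0 : ℝ) < p := by linarith
  calc (p : ℝ) ^ (-s) ≤ (p : ℝ) ^ (-1 : ℝ) :=
        Real.rpow_le_rpow_of_exponent_le (by linarith) (by linarith)
    _ = (p : ℝ)⁻¹ := Real.rpow_neg_one _
    _ ≤ 1 / 2 := by
        rw [one_div]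
        exact inv_anti₀ (by norm_num) hp2

/-- `∑_{p ∈ P} p^{-2s} ≤ 1` over any finite set of integers `≥ 2` -/
theorem dsr_sum_sq_rpow_le_one {s : ℝ} (hs : 1 < s) (P : Finset ℕ) (hP : ∀ p ∈ P, 2 ≤ p) :
    ∑ p ∈ P, ((p : ℝ) ^ (-s)) ^ 2 ≤ 1 := by
  set h : ℕ → ℝ := fun n => if 2 ≤ n then (n : ℝ) ^ (-(2 * s)) else 0 with hh
  have hnn : ∀ n, 0 ≤ h n := by
    intro n
    rw [hh]
    simp only
    split_ifs
    · positivity
    · exact le_rfl
  have h1 : ∑ p ∈ P, ((p : ℝ) ^ (-s)) ^ 2 = ∑ p ∈ P, h p := by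
    refine sum_congr rfl fun p hp => ?_
    rw [hh]
    simp only
    rw [if_pos (hP p hp), ← Real.rpow_natCast, ← Real.rpow_mul (Nat.cast_nonneg p)]
    congr 1
    push_cast
    ring
  obtain ⟨B, hB⟩ : ∃ B, ∀ p ∈ P, p < B + 2 := by
    refine ⟨P.sup id, fun p hp => ?_⟩
    have : p ≤ P.sup id := Finset.le_sup (f := id) hp
    omega
  have h2 : ∑ p ∈ P, h p ≤ ∑ n ∈ range (B + 2), h n :=
    sum_le_sum_of_subset_of_nonneg (fun p hp => mem_range.mpr (hB p hp)) (fun n _ _ => hnn n)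
  have h3 : ∑ n ∈ range (B + 2), h n = ∑ i ∈ range B, ((i : ℝ) + 2) ^ (-(2 * s)) := by
    rw [sum_range_succ', sum_range_succ']
    have e0 : h 0 = 0 := by rw [hh]; simp
    have e1 : h (0 + 1) = 0 := by rw [hh]; simp
    rw [e0, e1, add_zero, add_zero]
    refine sum_congr rfl fun i _ => ?_
    rw [hh]
    simp only
    rw [if_pos (by omega)]
    push_cast
    ring_nf
  have h4 := dsr_zeta_tail_le (s := 2 * s) (by linarith) B
  have h5 : 1 / (2 * s - 1) ≤ 1 := by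
    rw [div_le_one (by linarith)]
    linarith
  linarith

/-- **Rankin's bound, abstract form.** -/
theorem dsr_rankin_abstract (hT : DsrHecke N a ε) (h1 : a 1 = 1)
    (hε : ∀ p : ℕ, p.Prime → ¬ p ∣ N → ‖ε p‖ = 1)
    {C₁ : ℝ} (hC₁ : 0 ≤ C₁)
    (hA : ∀ M : ℕ, ∑ n ∈ range (M + 1), ‖a n‖ ^ 2 ≤ C₁ * (M + 1)) :
    ∀ s : ℝ, 1 < s → s < 2 → ∀ P : Finset ℕ, (∀ p ∈ P, p.Prime ∧ ¬ p ∣ N) →
      ∑ p ∈ P, ‖a p‖ ^ 2 * (p : ℝ) ^ (-s) ≤
        Real.log (1 / (s - 1)) + (Real.log (3 * max C₁ 1) + 4) := by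
  intro s hs hs2 P hP
  have hs1 : 0 < s - 1 := by linarith
  set D := C₁ * (2 + 1 / (s - 1)) with hD
  -- summability of F and the bound on its sum
  have hFnn := dsrF_nonneg N a s
  have hFsum : Summable (dsrF N a s) :=
    summable_of_sum_range_le hFnn (dsr_sum_dsrF_le hs hC₁ hA)
  have hFtsum : ∑' n, dsrF N a s n ≤ D :=
    Real.tsum_le_of_sum_range_le hFnn (dsr_sum_dsrF_le hs hC₁ hA)
  have hFnorm : Summable (fun n => ‖dsrF N a s n‖) := by
    simpa only [Real.norm_of_nonneg (hFnn _)] using hFsum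
  -- Euler product over P
  have hprod := EulerProduct.prod_filter_prime_tsum_eq_tsum_factoredNumbers
    (f := dsrF N a s) (dsrF_one N h1 s) (fun {m n} hmn => dsrF_mul hT h1 s hmn) hFnorm P
  have hfilter : P.filter Nat.Prime = P := filter_true_of_mem fun p hp => (hP p hp).1
  rw [hfilter] at hprod
  have hle : ∑' m : Nat.factoredNumbers P, dsrF N a s m ≤ ∑' n, dsrF N a s n :=
    tsum_comp_le_tsum_of_inj hFsum hFnn Subtype.val_injective
  -- local lower bounds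
  have hlocal : ∀ p ∈ P, Real.exp (‖a p‖ ^ 2 * (p : ℝ) ^ (-s) - 4 * ((p : ℝ) ^ (-s)) ^ 2)
      ≤ ∑' e : ℕ, dsrF N a s (p ^ e) := by
    intro p hp
    obtain ⟨hpp, hpN⟩ := hP p hp
    have hX0 : 0 < (p : ℝ) ^ (-s) := Real.rpow_pos_of_pos (by exact_mod_cast hpp.pos) _
    have hsum' : Summable fun e : ℕ => ‖a (p ^ e)‖ ^ 2 * ((p : ℝ) ^ (-s)) ^ e := by
      have := hFsum.comp_injective (Nat.pow_right_injective hpp.two_le)
      refine this.congr fun e => ?_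
      simp only [Function.comp_apply]
      exact dsrF_prime_pow hpp hpN s e
    have := dsr_local_lower (a := fun e => a (p ^ e)) (A := a p) (ε := ε p) (hε p hpp hpN)
      (by simpa using h1) (by simp) (fun m => hT.pow_succ_succ hpp hpN m) hX0
      (dsr_prime_rpow_le_half hpp hs) hsum'
    refine this.trans (le_of_eq ?_)
    refine tsum_congr fun e => ?_
    exact (dsrF_prime_pow hpp hpN s e).symm
  have hprodle : ∏ p ∈ P, Real.exp (‖a p‖ ^ 2 * (p : ℝ) ^ (-s) - 4 * ((p : ℝ) ^ (-s)) ^ 2)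
      ≤ ∏ p ∈ P, ∑' e : ℕ, dsrF N a s (p ^ e) :=
    prod_le_prod (fun p _ => (Real.exp_pos _).le) hlocal
  rw [← Real.exp_sum] at hprodle
  have hexp : Real.exp (∑ p ∈ P, (‖a p‖ ^ 2 * (p : ℝ) ^ (-s) - 4 * ((p : ℝ) ^ (-s)) ^ 2)) ≤ D := by
    calc _ ≤ ∏ p ∈ P, ∑' e : ℕ, dsrF N a s (p ^ e) := hprodle
      _ = ∑' m : Nat.factoredNumbers P, dsrF N a s m := hprod
      _ ≤ ∑' n, dsrF N a s n := hle
      _ ≤ D := hFtsum
  have hDpos : 0 < D := lt_of_lt_of_le (Real.exp_pos _) hexp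
  have hlog := (Real.le_log_iff_exp_le hDpos).mpr hexp
  rw [sum_sub_distrib, ← mul_sum] at hlog
  have hsq := dsr_sum_sq_rpow_le_one hs P (fun p hp => (hP p hp).1.two_le)
  -- D ≤ 3 max C₁ 1 / (s-1)
  have hinv : 1 ≤ 1 / (s - 1) := by
    rw [le_div_iff₀ hs1]; linarith
  have hmax : C₁ ≤ max C₁ 1 := le_max_left _ _
  have hmax1 : (1 : ℝ) ≤ max C₁ 1 := le_max_right _ _
  have hD2 : D ≤ 3 * max C₁ 1 * (1 / (s - 1)) := by
    rw [hD]
    have : C₁ * (2 + 1 / (s - 1)) ≤ max C₁ 1 * (2 + 1 / (s - 1)) :=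
      mul_le_mul_of_nonneg_right hmax (by linarith)
    nlinarith
  have hlogD : Real.log D ≤ Real.log (3 * max C₁ 1) + Real.log (1 / (s - 1)) := by
    rw [← Real.log_mul (by positivity) (by positivity)]
    exact Real.log_le_log hDpos hD2
  linarith

end Abstract

section CuspForm

open CongruenceSubgroup ModularFormClass

/-- **Rankin's bound** for a weight-one cusp form on `Γ₁(N)` satisfying the Hecke relations of S48. -/
theorem dsr_rankin {N : ℕ} [NeZero N] (ε : DirichletCharacter ℂ N) (f : CuspForm (Gamma1 N) 1)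
    (hf₁ : qCoeff f 1 = 1)
    (hT : ∀ p : ℕ, p.Prime → ¬ p ∣ N → ∀ n : ℕ,
        qCoeff f (p * n) + ε (p : ZMod N) * (if p ∣ n then qCoeff f (n / p) else 0) =
          qCoeff f p * qCoeff f n) :
    ∃ C : ℝ, ∀ s : ℝ, 1 < s → s < 2 → ∀ P : Finset ℕ, (∀ p ∈ P, p.Prime ∧ ¬ p ∣ N) →
      ∑ p ∈ P, ‖qCoeff f p‖ ^ 2 * (p : ℝ) ^ (-s) ≤ Real.log (1 / (s - 1)) + C := by
  obtain ⟨C₁, hC₁, hA⟩ := dsr_sum_sq_le (Γ := Subgroup.map (Matrix.SpecialLinearGroup.mapGL ℝ)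
    (Gamma1 N)) f (dsr_one_mem_strictPeriods_Gamma1 N)
  refine ⟨Real.log (3 * max C₁ 1) + 4, ?_⟩
  refine dsr_rankin_abstract (N := N) (a := fun n => qCoeff f n)
    (ε := fun p => ε (p : ZMod N)) hT hf₁ ?_ hC₁ hA
  intro p hp hpN
  have hc : p.Coprime N := (Nat.Prime.coprime_iff_not_dvd hp).mpr hpN
  have hu : IsUnit ((p : ℕ) : ZMod N) := (ZMod.isUnit_iff_coprime p N).mpr hc
  obtain ⟨u, hu'⟩ := hu
  rw [← hu']
  exact DirichletCharacter.unit_norm_eq_one ε u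

end CuspForm

end Fermat.Agent.DS
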